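/-
T1B / G4-d DIM (brick 625, helper64), ABSTRACT part.

A `ℤ`-lattice of "integral `q`-expansions" that is `p`-saturated stays linearly independent after
reduction modulo `p`, over EVERY field of characteristic `p`.

* `IsSaturatedAt p c` : `c : M →ₗ[ℤ] (ℕ → ℤ)`; every `x` all of whose coefficients are divisible by
  `p` is `p • y`.
* `linearIndependent_zmod`, `linearIndependent_charP` : for a `ℤ`-basis `b` of `M` and a
  `p`-saturated `c`, the reduced coefficient sequences `n ↦ (c (b i) n : k)` are `k`-linearly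
  independent (`k` a field of characteristic `p`).
* Complex side: `V` a `ℂ`-vector space with an injective coefficient map `E : V →ₗ[ℂ] (ℕ → ℂ)` and
  `Λ ≤ V` the `ℤ`-submodule of the vectors with integral coefficients (`hΛ`):
  `intCoeffLin : Λ →ₗ[ℤ] (ℕ → ℤ)`, `intCoeffLin_injective`, `isSaturatedAt_intCoeffLin`,
  `linearIndependent_complex` (a `ℤ`-basis of `Λ` is `ℂ`-linearly independent),
  `finrank_eq_card_of_span` (if moreover `Λ` spans `V` over `ℂ`: `dim_ℂ V = rank_ℤ Λ`).
-/
import Mathlib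
import Fermat.Agent.S20.IndepBaseChange

set_option autoImplicit false
set_option linter.unusedSectionVars false

namespace Fermat.Agent.T1B.Dim64

open Module Function

/-! ### Reduction modulo `p` of a saturated lattice -/

section ModP

variable {M : Type*} [AddCommGroup M] {ι : Type*} [Fintype ι]

/-- `c : M →ₗ[ℤ] (ℕ → ℤ)` is `p`-saturated: an element all of whose coefficients are divisible by
`p` is divisible by `p` in `M`. -/
def IsSaturatedAt (p : ℕ) (c : M →ₗ[ℤ] (ℕ → ℤ)) : Prop :=
  ∀ x : M, (∀ n, (p : ℤ) ∣ c x n) → ∃ y : M, x = (p : ℤ) • y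

/-- **Independence modulo `p`**, over the prime field. -/
theorem linearIndependent_zmod (p : ℕ) [Fact p.Prime] (c : M →ₗ[ℤ] (ℕ → ℤ))
    (hsat : IsSaturatedAt p c) (b : Basis ι ℤ M) :
    LinearIndependent (ZMod p) (fun i => fun n => ((c (b i) n : ℤ) : ZMod p)) := by
  classical
  rw [Fintype.linearIndependent_iff]
  intro a ha i
  have hx : ∀ n, (p : ℤ) ∣ c (∑ j, (((a j).val : ℕ) : ℤ) • b j) n := by
    intro n
    rw [← ZMod.intCast_zmod_eq_zero_iff_dvd]
    have h1 : ∑ j, a j * ((c (b j) n : ℤ) : ZMod p) = 0 := by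
      have := congrFun ha n
      simpa only [Finset.sum_apply, Pi.smul_apply, smul_eq_mul, Pi.zero_apply] using this
    rw [map_sum, Finset.sum_apply, Int.cast_sum, ← h1]
    refine Finset.sum_congr rfl fun j _ => ?_
    rw [map_zsmul, Pi.smul_apply, smul_eq_mul, Int.cast_mul, Int.cast_natCast,
      ZMod.natCast_zmod_val]
  obtain ⟨y, hy⟩ := hsat _ hx
  have h2 := congrArg (fun z => b.repr z i) hy
  simp only [map_sum, map_zsmul, Basis.repr_self, Finsupp.smul_single, smul_eq_mul, mul_one,
    Finsupp.coe_finsetSum, Finset.sum_apply, Finsupp.single_apply, Finset.sum_ite_eq',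
    Finset.mem_univ, if_true, Finsupp.coe_smul, Pi.smul_apply] at h2
  have h3 := congrArg (fun z : ℤ => (z : ZMod p)) h2
  simp only [Int.cast_natCast, ZMod.natCast_zmod_val, Int.cast_mul, ZMod.natCast_self,
    zero_mul] at h3
  exact h3

/-- **Independence modulo `p`**, over every field of characteristic `p`. -/
theorem linearIndependent_charP (p : ℕ) [Fact p.Prime] (k : Type*) [Field k] [CharP k p]
    (c : M →ₗ[ℤ] (ℕ → ℤ)) (hsat : IsSaturatedAt p c) (b : Basis ι ℤ M) :
    LinearIndependent k (fun i => fun n => ((c (b i) n : ℤ) : k)) := by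
  have h := Fermat.Agent.S20.IndepBaseChange.linearIndependent_map
    (ZMod.castHom (dvd_refl p) k) (linearIndependent_zmod p c hsat b)
  simpa only [map_intCast] using h

end ModP

/-! ### The complex side -/

section Cplx

variable {V : Type*} [AddCommGroup V] [Module ℂ V] (E : V →ₗ[ℂ] (ℕ → ℂ))
  (Λ : Submodule ℤ V) (hΛ : ∀ v : V, v ∈ Λ ↔ ∀ n : ℕ, ∃ m : ℤ, E v n = (m : ℂ))

/-- The integral coefficients of an element of the lattice. -/
noncomputable def intCoeff (x : Λ) (n : ℕ) : ℤ := ((hΛ x).1 x.2 n).choose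

theorem intCoeff_spec (x : Λ) (n : ℕ) : ((intCoeff E Λ hΛ x n : ℤ) : ℂ) = E x n :=
  ((hΛ x).1 x.2 n).choose_spec.symm

/-- The integral coefficient map `Λ →ₗ[ℤ] (ℕ → ℤ)`. -/
noncomputable def intCoeffLin : Λ →ₗ[ℤ] (ℕ → ℤ) where
  toFun x n := intCoeff E Λ hΛ x n
  map_add' x y := by
    funext n
    apply Int.cast_injective (α := ℂ)
    rw [Pi.add_apply, Int.cast_add, intCoeff_spec, intCoeff_spec, intCoeff_spec,
      Submodule.coe_add, map_add, Pi.add_apply]
  map_smul' a x := by
    funext n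
    apply Int.cast_injective (α := ℂ)
    rw [RingHom.id_apply, Pi.smul_apply, smul_eq_mul, Int.cast_mul, intCoeff_spec, intCoeff_spec,
      Submodule.coe_smul, ← Int.cast_smul_eq_zsmul ℂ, map_smul, Pi.smul_apply, smul_eq_mul]

@[simp] theorem intCoeffLin_apply (x : Λ) (n : ℕ) :
    intCoeffLin E Λ hΛ x n = intCoeff E Λ hΛ x n := rfl

theorem cast_intCoeffLin (x : Λ) (n : ℕ) : ((intCoeffLin E Λ hΛ x n : ℤ) : ℂ) = E x n :=
  intCoeff_spec E Λ hΛ x n

variable {E}

theorem intCoeffLin_injective (hE : Injective E) : Injective (intCoeffLin E Λ hΛ) := by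
  intro x y h
  apply Subtype.ext
  apply hE
  funext n
  rw [← cast_intCoeffLin E Λ hΛ x n, ← cast_intCoeffLin E Λ hΛ y n, h]

include hΛ in
/-- The lattice of integral vectors is torsion-free. -/
theorem isTorsionFree_of_injective (hE : Injective E) : Module.IsTorsionFree ℤ Λ :=
  Function.Injective.moduleIsTorsionFree (intCoeffLin E Λ hΛ) (intCoeffLin_injective Λ hΛ hE)
    (fun r m => map_smul (intCoeffLin E Λ hΛ) r m)

/-- The lattice of integral vectors is saturated at every `p ≠ 0`. -/
theorem isSaturatedAt_intCoeffLin (p : ℕ) (hp : p ≠ 0) :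
    IsSaturatedAt p (intCoeffLin E Λ hΛ) := by
  intro x hx
  have hp' : (p : ℂ) ≠ 0 := Nat.cast_ne_zero.2 hp
  have hmem : ((p : ℂ)⁻¹ • (x : V)) ∈ Λ := by
    rw [hΛ]
    intro n
    obtain ⟨d, hd⟩ := hx n
    refine ⟨d, ?_⟩
    rw [map_smul, Pi.smul_apply, smul_eq_mul, ← cast_intCoeffLin E Λ hΛ x n, hd, Int.cast_mul,
      Int.cast_natCast, inv_mul_cancel_left₀ hp']
  refine ⟨⟨_, hmem⟩, Subtype.ext ?_⟩
  rw [Submodule.coe_smul, ← Int.cast_smul_eq_zsmul ℂ, Int.cast_natCast, smul_smul,
    mul_inv_cancel₀ hp', one_smul]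

variable {ι : Type*} [Fintype ι]

include hΛ in
/-- A `ℤ`-basis of the lattice of integral vectors is `ℂ`-linearly independent. -/
theorem linearIndependent_complex (hE : Injective E) (b : Basis ι ℤ Λ) :
    LinearIndependent ℂ (fun i => ((b i : Λ) : V)) := by
  -- integer sequences, independent over `ℤ`
  have h1 : LinearIndependent ℤ (fun i => intCoeffLin E Λ hΛ (b i)) :=
    b.linearIndependent.map' _ (LinearMap.ker_eq_bot.2 (intCoeffLin_injective Λ hΛ hE))
  -- rational sequences, independent over `ℤ`, hence over `ℚ`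
  let castQ : (ℕ → ℤ) →ₗ[ℤ] (ℕ → ℚ) :=
    { toFun := fun z n => (z n : ℚ)
      map_add' := fun z w => by funext n; simp
      map_smul' := fun a z => by funext n; simp }
  have hcastQ : Injective castQ := fun z w h => funext fun n => Int.cast_injective (congrFun h n)
  have h2 : LinearIndependent ℤ (fun i => castQ (intCoeffLin E Λ hΛ (b i))) :=
    h1.map' _ (LinearMap.ker_eq_bot.2 hcastQ)
  have h3 : LinearIndependent ℚ (fun i => castQ (intCoeffLin E Λ hΛ (b i))) :=
    (LinearIndependent.iff_fractionRing ℤ ℚ).1 h2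
  -- complex sequences
  have h4 := Fermat.Agent.S20.IndepBaseChange.linearIndependent_map (algebraMap ℚ ℂ) h3
  have h5 : LinearIndependent ℂ (fun i => E ((b i : Λ) : V)) := by
    have he : (fun i => E ((b i : Λ) : V)) =
        fun i k => algebraMap ℚ ℂ (castQ (intCoeffLin E Λ hΛ (b i)) k) := by
      funext i n
      show E ((b i : Λ) : V) n = algebraMap ℚ ℂ ((intCoeffLin E Λ hΛ (b i) n : ℤ) : ℚ)
      rw [← cast_intCoeffLin E Λ hΛ (b i) n, eq_ratCast, Rat.cast_intCast]
    rw [he]
    exact h4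
  exact LinearIndependent.of_comp E h5

/-- If the lattice spans `V` over `ℂ`, so does any `ℤ`-basis of it. -/
theorem span_basis_eq_top (hspan : Submodule.span ℂ (Λ : Set V) = ⊤) (b : Basis ι ℤ Λ) :
    Submodule.span ℂ (Set.range fun i => ((b i : Λ) : V)) = ⊤ := by
  rw [eq_top_iff, ← hspan, Submodule.span_le]
  intro v hv
  have h' : v = ∑ i, (b.repr ⟨v, hv⟩ i) • ((b i : Λ) : V) := by
    have := congrArg (fun z : Λ => (z : V)) (b.sum_repr ⟨v, hv⟩)
    simp only [Submodule.coe_sum, Submodule.coe_smul] at this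
    exact this.symm
  rw [h']
  refine Submodule.sum_mem _ fun i _ => ?_
  rw [← Int.cast_smul_eq_zsmul ℂ]
  exact Submodule.smul_mem _ _ (Submodule.subset_span ⟨i, rfl⟩)

include hΛ in
/-- **`dim_ℂ V = rank_ℤ Λ`** when the lattice of integral vectors spans. -/
theorem finrank_eq_card_of_span (hE : Injective E)
    (hspan : Submodule.span ℂ (Λ : Set V) = ⊤) (b : Basis ι ℤ Λ) :
    Module.finrank ℂ V = Fintype.card ι := by
  have hb := Basis.mk (linearIndependent_complex Λ hΛ hE b)
    (span_basis_eq_top Λ hspan b).ge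
  exact Module.finrank_eq_card_basis hb

end Cplx

end Fermat.Agent.T1B.Dim64
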