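/-
T1B / G4-d DIM (brick 625, helper64), the modular instance.

`Λ = CuspForm.intLattice N 2` (weight 2 cusp forms of level `Γ₀(N)` with integral `q`-expansion):

* `coeffZ N : Λ →ₗ[ℤ] (ℕ → ℤ)` the integral `q`-expansion, `cast_coeffZ`, `coeffZ_injective`,
  `isSaturatedAt_coeffZ` (`Λ` is `p`-saturated in `ℤ[[q]]`);
* `Λ` is a finite free `ℤ`-module; `finrank_intLattice` : if `S₂(Γ₀(N))` has an integral structure
  (S23) then `rank_ℤ Λ = dim_ℂ S₂(Γ₀(N))`;
* `redZ N k : Λ →ₗ[ℤ] (ℕ → k)` the reduction of the `q`-expansion to a commutative ring `k`;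
* **`linearIndependent_redZ`** : for a `ℤ`-basis `b` of `Λ` and a field `k` of characteristic `p`, the
  reductions `redZ N k (b i)` are `k`-linearly independent.
-/
import Mathlib
import Fermat.Prelude.Def_CuspForm_IntegralStructure
import Fermat.Prelude.Thm_CuspForm_intLattice_fg
import Fermat.Agent.S49.QExp
import Fermat.Agent.T1B.Dim64.Lattice

set_option autoImplicit false

noncomputable section

namespace Fermat.Agent.T1B.Dim64

open CuspForm CongruenceSubgroup ModularFormClass Module Function

variable (N : ℕ)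

/-- Membership in the integral lattice, in terms of the coefficient map `S49.qCoeffLin`. -/
theorem mem_intLattice_iff_qCoeffLin (f : CuspForm (Gamma0 N) 2) :
    f ∈ CuspForm.intLattice N 2 ↔ ∀ n : ℕ, ∃ m : ℤ, Fermat.Agent.S49.qCoeffLin N f n = (m : ℂ) :=
  P2MW.S_CuspForm_intLattice_fg.W3WsD.mem_intLattice_iff f

/-- The integral `q`-expansion of an integral cusp form. -/
def coeffZ : ↥(CuspForm.intLattice N 2) →ₗ[ℤ] (ℕ → ℤ) :=
  intCoeffLin (Fermat.Agent.S49.qCoeffLin N) (CuspForm.intLattice N 2)
    (mem_intLattice_iff_qCoeffLin N)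

theorem cast_coeffZ (f : ↥(CuspForm.intLattice N 2)) (n : ℕ) :
    ((coeffZ N f n : ℤ) : ℂ) = qCoeff (f : CuspForm (Gamma0 N) 2) n :=
  cast_intCoeffLin (Fermat.Agent.S49.qCoeffLin N) (CuspForm.intLattice N 2)
    (mem_intLattice_iff_qCoeffLin N) f n

theorem coeffZ_injective : Injective (coeffZ N) :=
  intCoeffLin_injective (CuspForm.intLattice N 2) (mem_intLattice_iff_qCoeffLin N)
    (Fermat.Agent.S49.qCoeffLin_injective N)

/-- The integral lattice is saturated in `ℤ[[q]]` at every `p ≠ 0`. -/
theorem isSaturatedAt_coeffZ (p : ℕ) (hp : p ≠ 0) : IsSaturatedAt p (coeffZ N) :=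
  isSaturatedAt_intCoeffLin (CuspForm.intLattice N 2) (mem_intLattice_iff_qCoeffLin N) p hp

/-- A cusp form with integral coefficients `c` is in the lattice, with `coeffZ = c`. -/
theorem coeffZ_eq_of_qCoeff (g : CuspForm (Gamma0 N) 2) (c : ℕ → ℤ)
    (h : ∀ n, qCoeff g n = (c n : ℂ)) :
    ∃ hg : g ∈ CuspForm.intLattice N 2, coeffZ N ⟨g, hg⟩ = c := by
  have hg : g ∈ CuspForm.intLattice N 2 :=
    (mem_intLattice_iff_qCoeffLin N g).2 fun n => ⟨c n, h n⟩
  refine ⟨hg, funext fun n => Int.cast_injective (α := ℂ) ?_⟩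
  rw [cast_coeffZ, h n]

instance isTorsionFree_intLattice : Module.IsTorsionFree ℤ ↥(CuspForm.intLattice N 2) :=
  isTorsionFree_of_injective (CuspForm.intLattice N 2) (mem_intLattice_iff_qCoeffLin N)
    (Fermat.Agent.S49.qCoeffLin_injective N)

instance finite_intLattice [NeZero N] : Module.Finite ℤ ↥(CuspForm.intLattice N 2) :=
  Module.Finite.iff_fg.2 (CuspForm.intLattice_fg N 2)

instance free_intLattice [NeZero N] : Module.Free ℤ ↥(CuspForm.intLattice N 2) :=
  Module.free_of_finite_type_torsion_free'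

/-- **`rank_ℤ Λ = dim_ℂ S₂(Γ₀(N))`**, given the integral structure (S23). -/
theorem finrank_intLattice [NeZero N] (hint : CuspForm.HasIntegralStructure N 2) :
    Module.finrank ℤ ↥(CuspForm.intLattice N 2) =
      Module.finrank ℂ (CuspForm (Gamma0 N) 2) := by
  rw [Module.finrank_eq_card_chooseBasisIndex]
  exact (finrank_eq_card_of_span (CuspForm.intLattice N 2) (mem_intLattice_iff_qCoeffLin N)
    (Fermat.Agent.S49.qCoeffLin_injective N) hint
    (Module.Free.chooseBasis ℤ ↥(CuspForm.intLattice N 2))).symm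

/-- A `ℤ`-basis of the integral lattice is a `ℂ`-basis of `S₂(Γ₀(N))` (S23): independence. -/
theorem linearIndependent_basis_complex {ι : Type*} [Fintype ι]
    (b : Basis ι ℤ ↥(CuspForm.intLattice N 2)) :
    LinearIndependent ℂ (fun i => ((b i : ↥(CuspForm.intLattice N 2)) : CuspForm (Gamma0 N) 2)) :=
  linearIndependent_complex (CuspForm.intLattice N 2) (mem_intLattice_iff_qCoeffLin N)
    (Fermat.Agent.S49.qCoeffLin_injective N) b

/-- Reduction of the integral `q`-expansion to a commutative ring `k`. -/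
def redZ (k : Type*) [CommRing k] : ↥(CuspForm.intLattice N 2) →ₗ[ℤ] (ℕ → k) where
  toFun f n := ((coeffZ N f n : ℤ) : k)
  map_add' f g := by
    funext n
    simp only [map_add, Pi.add_apply, Int.cast_add]
  map_smul' a f := by
    funext n
    simp only [map_smul, Pi.smul_apply, smul_eq_mul, Int.cast_mul, RingHom.id_apply,
      zsmul_eq_mul]

@[simp] theorem redZ_apply (k : Type*) [CommRing k] (f : ↥(CuspForm.intLattice N 2)) (n : ℕ) :
    redZ N k f n = ((coeffZ N f n : ℤ) : k) := rfl

/-- **Independence modulo `p`**: the reductions of a `ℤ`-basis of the integral lattice are linearly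
independent over every field of characteristic `p`. -/
theorem linearIndependent_redZ (p : ℕ) [Fact p.Prime] (k : Type*) [Field k] [CharP k p]
    {ι : Type*} [Fintype ι] (b : Basis ι ℤ ↥(CuspForm.intLattice N 2)) :
    LinearIndependent k (fun i => redZ N k (b i)) :=
  linearIndependent_charP p k (coeffZ N)
    (isSaturatedAt_coeffZ N p (Fact.out : p.Prime).ne_zero) b

end Fermat.Agent.T1B.Dim64
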