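/-
T1B / G4-d DIM (brick 625, helper64), in the vocabulary of `Hol13/Iface.lean` (helper13).

`Λ = CuspForm.intLattice N 2`, `serZ N R : Λ →ₗ[ℤ] R((q))` the `q`-expansion with coefficients in `R`
(`= Hol13.serOf R (coeffZ N f)`).

* `redSet_eq_range` : `Hol13.redSet R N = Set.range (serZ N R)`;
* `redSpan_eq_span_basis` : `Hol13.redSpan R N` is spanned by the images of any `ℤ`-basis of `Λ`;
* **`linearIndependent_serZ`** : over a field `k` of characteristic `p` the images of a `ℤ`-basis of
  `Λ` are `k`-linearly independent (`Λ` is `p`-saturated in `ℤ[[q]]`);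
* `redSpanBasis` : the resulting `k`-basis of `redSpan k N`, `redSpanBasis_apply`;
* **`finrank_redSpan`** : `dim_k (redSpan k N) = dim_ℂ S₂(Γ₀(N))` (given S23);
  `exists_linearIndependent_redSet` : `dim_ℂ S₂(Γ₀(N))` linearly independent elements of `redSet k N`
  spanning `redSpan k N`;
* `redSpan_eq_of_le_of_finrank_le` : a subspace `H ≥ redSpan k N` with `dim H ≤ dim_ℂ S₂` IS
  `redSpan k N`.
-/
import Mathlib
import Fermat.Agent.T1B.Hol13.Iface
import Fermat.Agent.T1B.Dim64.Main

set_option autoImplicit false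

noncomputable section

namespace Fermat.Agent.T1B.Dim64

open CuspForm CongruenceSubgroup ModularFormClass Module Function
open Fermat.Agent.T1B.Hol13

/-! ### Sequences as Laurent series -/

section Seq

variable (R : Type*) [CommRing R]

/-- `c ↦ ∑ c n q^n`, as an `R`-linear map. -/
def seqToLS : (ℕ → R) →ₗ[R] LaurentSeries R where
  toFun c := HahnSeries.ofPowerSeries ℤ R (PowerSeries.mk c)
  map_add' c d := by
    rw [← map_add]
    congr 1
  map_smul' a c := by
    have h : (PowerSeries.mk (a • c) : PowerSeries R) = PowerSeries.C a * PowerSeries.mk c := by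
      ext n
      simp
    rw [h, map_mul, HahnSeries.ofPowerSeries_C, HahnSeries.C_mul_eq_smul, RingHom.id_apply]

theorem seqToLS_apply (c : ℕ → R) :
    seqToLS R c = HahnSeries.ofPowerSeries ℤ R (PowerSeries.mk c) := rfl

theorem seqToLS_injective : Injective (seqToLS R) := by
  intro c d h
  have h' := HahnSeries.ofPowerSeries_injective h
  funext n
  have := congrArg (PowerSeries.coeff n) h'
  simpa using this

theorem seqToLS_intCast (c : ℕ → ℤ) : seqToLS R (fun n => ((c n : ℤ) : R)) = serOf R c := rfl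

end Seq

variable (N : ℕ)

/-! ### The `q`-expansion of an integral form with coefficients in `R` -/

/-- The `q`-expansion `∑ (c n : R) q^n` of an integral cusp form. -/
def serZ (R : Type*) [CommRing R] : ↥(CuspForm.intLattice N 2) →ₗ[ℤ] LaurentSeries R :=
  ((seqToLS R).restrictScalars ℤ).comp (redZ N R)

theorem serZ_apply (R : Type*) [CommRing R] (f : ↥(CuspForm.intLattice N 2)) :
    serZ N R f = serOf R (coeffZ N f) := rfl

theorem serZ_mem_redSet (R : Type*) [CommRing R] (f : ↥(CuspForm.intLattice N 2)) :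
    serZ N R f ∈ redSet R N :=
  ⟨f.1, coeffZ N f, fun n => (cast_coeffZ N f n).symm, rfl⟩

theorem mem_redSet_iff (R : Type*) [CommRing R] (s : LaurentSeries R) :
    s ∈ redSet R N ↔ ∃ f : ↥(CuspForm.intLattice N 2), s = serZ N R f := by
  constructor
  · rintro ⟨g, c, hc, rfl⟩
    obtain ⟨hg, h⟩ := coeffZ_eq_of_qCoeff N g c hc
    exact ⟨⟨g, hg⟩, by rw [serZ_apply, h]⟩
  · rintro ⟨f, rfl⟩
    exact serZ_mem_redSet N R f

theorem redSet_eq_range (R : Type*) [CommRing R] : redSet R N = Set.range (serZ N R) := by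
  ext s
  rw [mem_redSet_iff, Set.mem_range]
  exact ⟨fun ⟨f, h⟩ => ⟨f, h.symm⟩, fun ⟨f, h⟩ => ⟨f, h.symm⟩⟩

/-- `redSpan R N` is spanned by the images of a `ℤ`-basis of the integral lattice. -/
theorem redSpan_eq_span_basis (R : Type*) [CommRing R] {ι : Type*} [Fintype ι]
    (b : Basis ι ℤ ↥(CuspForm.intLattice N 2)) :
    redSpan R N = Submodule.span R (Set.range fun i => serZ N R (b i)) := by
  apply le_antisymm
  · rw [redSpan, Submodule.span_le, redSet_eq_range]
    rintro _ ⟨f, rfl⟩
    have h : serZ N R f = ∑ i, (b.repr f i) • serZ N R (b i) := by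
      conv_lhs => rw [← b.sum_repr f]
      rw [map_sum]
      exact Finset.sum_congr rfl fun i _ => map_zsmul _ _ _
    rw [h]
    refine Submodule.sum_mem _ fun i _ => ?_
    rw [← Int.cast_smul_eq_zsmul R]
    exact Submodule.smul_mem _ _ (Submodule.subset_span ⟨i, rfl⟩)
  · rw [Submodule.span_le]
    rintro _ ⟨i, rfl⟩
    exact Submodule.subset_span (serZ_mem_redSet N R (b i))

/-- `redSpan R N` is a finite `R`-module. -/
instance finite_redSpan (R : Type*) [CommRing R] [NeZero N] : Module.Finite R ↥(redSpan R N) := by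
  rw [redSpan_eq_span_basis N R (Module.Free.chooseBasis ℤ ↥(CuspForm.intLattice N 2))]
  exact Module.Finite.span_of_finite R (Set.finite_range _)

/-! ### Characteristic `p` -/

/-- **Independence modulo `p`** in `k((q))`. -/
theorem linearIndependent_serZ (p : ℕ) [Fact p.Prime] (k : Type*) [Field k] [CharP k p]
    {ι : Type*} [Fintype ι] (b : Basis ι ℤ ↥(CuspForm.intLattice N 2)) :
    LinearIndependent k (fun i => serZ N k (b i)) :=
  (linearIndependent_redZ N p k b).map' (seqToLS k) (LinearMap.ker_eq_bot.2 (seqToLS_injective k))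

/-- The `k`-basis of `redSpan k N` given by a `ℤ`-basis of the integral lattice. -/
def redSpanBasis (p : ℕ) [Fact p.Prime] (k : Type*) [Field k] [CharP k p]
    {ι : Type*} [Fintype ι] (b : Basis ι ℤ ↥(CuspForm.intLattice N 2)) :
    Basis ι k ↥(redSpan k N) :=
  (Basis.span (linearIndependent_serZ N p k b)).map
    (LinearEquiv.ofEq _ _ (redSpan_eq_span_basis N k b).symm)

theorem redSpanBasis_apply (p : ℕ) [Fact p.Prime] (k : Type*) [Field k] [CharP k p]
    {ι : Type*} [Fintype ι] (b : Basis ι ℤ ↥(CuspForm.intLattice N 2)) (i : ι) :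
    ((redSpanBasis N p k b i : ↥(redSpan k N)) : LaurentSeries k) = serZ N k (b i) := by
  rw [redSpanBasis, Basis.map_apply, LinearEquiv.coe_ofEq_apply, Basis.span_apply]

/-- **`dim_k (redSpan k N) = dim_ℂ S₂(Γ₀(N))`**, given the integral structure (S23). -/
theorem finrank_redSpan [NeZero N] (p : ℕ) [Fact p.Prime] (k : Type*) [Field k] [CharP k p]
    (hint : CuspForm.HasIntegralStructure N 2) :
    Module.finrank k ↥(redSpan k N) = Module.finrank ℂ (CuspForm (Gamma0 N) 2) := by
  rw [Module.finrank_eq_card_basis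
    (redSpanBasis N p k (Module.Free.chooseBasis ℤ ↥(CuspForm.intLattice N 2))),
    ← finrank_intLattice N hint, Module.finrank_eq_card_chooseBasisIndex]

/-- **G4-d**: `dim_ℂ S₂(Γ₀(N))` elements of `redSet k N`, `k`-linearly independent, spanning
`redSpan k N`. -/
theorem exists_linearIndependent_redSet [NeZero N] (p : ℕ) [Fact p.Prime] (k : Type*) [Field k]
    [CharP k p] (hint : CuspForm.HasIntegralStructure N 2) :
    ∃ v : Fin (Module.finrank ℂ (CuspForm (Gamma0 N) 2)) → LaurentSeries k,
      (∀ i, v i ∈ redSet k N) ∧ LinearIndependent k v ∧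
        Submodule.span k (Set.range v) = redSpan k N := by
  let b : Basis (Fin (Module.finrank ℂ (CuspForm (Gamma0 N) 2))) ℤ ↥(CuspForm.intLattice N 2) :=
    (Module.finBasis ℤ ↥(CuspForm.intLattice N 2)).reindex (finCongr (finrank_intLattice N hint))
  exact ⟨fun i => serZ N k (b i), fun i => serZ_mem_redSet N k (b i),
    linearIndependent_serZ N p k b, (redSpan_eq_span_basis N k b).symm⟩

/-- A subspace containing `redSpan k N` of dimension at most `dim_ℂ S₂(Γ₀(N))` is `redSpan k N`. -/
theorem redSpan_eq_of_le_of_finrank_le [NeZero N] (p : ℕ) [Fact p.Prime] (k : Type*) [Field k]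
    [CharP k p] (hint : CuspForm.HasIntegralStructure N 2)
    (H : Submodule k (LaurentSeries k)) [Module.Finite k ↥H] (hle : redSpan k N ≤ H)
    (hdim : Module.finrank k ↥H ≤ Module.finrank ℂ (CuspForm (Gamma0 N) 2)) :
    redSpan k N = H :=
  Submodule.eq_of_le_of_finrank_le hle (by rw [finrank_redSpan N p k hint]; exact hdim)

end Fermat.Agent.T1B.Dim64
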