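/-
T1B / H-SAT = G4-d DIM (brick 625, helper64): the unconditional statements (S23 and S20 plugged in),
in the vocabulary of `Hol13/Plan.lean`.

* `hasIntegralStructure N` = `Fermat.Agent.S23.result N`;
* **`pd`** : `Hol13.PD N κ` for every field `κ` of characteristic `p` (slice (P-D) of helper13's plan);
* `finrank_redSpan_eq_gDim` : `dim_κ (redSpan κ N) = gDim N`;
* `finrank_redSpan_eq_genusFormula` : `(dim_κ (redSpan κ N) : ℚ) = ModularCurve.genusFormula N`;
* `redSpan_eq_of_le_of_finrank_le_gDim` : a subspace `H ≥ redSpan κ N` with `dim H ≤ gDim N` is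
  `redSpan κ N`.
-/
import Mathlib
import Fermat.Agent.S20
import Fermat.Agent.S23
import Fermat.Agent.T1B.Hol13.Plan
import Fermat.Agent.T1B.Dim64.RedSpan

set_option autoImplicit false

noncomputable section

namespace Fermat.Agent.T1B.Dim64

open CuspForm CongruenceSubgroup ModularFormClass Module Function
open Fermat.Agent.T1B.Hol13

variable (N : ℕ) [NeZero N]

/-- S23: `S₂(Γ₀(N))` has an integral structure. -/
theorem hasIntegralStructure : CuspForm.HasIntegralStructure N 2 := Fermat.Agent.S23.result N

/-- **(P-D)** of `Hol13/Plan.lean`: `gDim N` linearly independent elements of `redSet κ N`. -/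
theorem pd (p : ℕ) [Fact p.Prime] (κ : Type*) [Field κ] [CharP κ p] : PD N κ :=
  (exists_linearIndependent_redSet N p κ (hasIntegralStructure N)).elim fun v hv =>
    ⟨v, hv.2.1, hv.1⟩

theorem finrank_redSpan_eq_gDim (p : ℕ) [Fact p.Prime] (κ : Type*) [Field κ] [CharP κ p] :
    Module.finrank κ ↥(redSpan κ N) = gDim N :=
  finrank_redSpan N p κ (hasIntegralStructure N)

theorem finrank_redSpan_eq_genusFormula (p : ℕ) [Fact p.Prime] (κ : Type*) [Field κ]
    [CharP κ p] :
    (Module.finrank κ ↥(redSpan κ N) : ℚ) = ModularCurve.genusFormula N := by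
  rw [finrank_redSpan N p κ (hasIntegralStructure N)]
  exact Fermat.Agent.S20.result N

theorem redSpan_eq_of_le_of_finrank_le_gDim (p : ℕ) [Fact p.Prime] (κ : Type*) [Field κ]
    [CharP κ p] (H : Submodule κ (LaurentSeries κ)) [Module.Finite κ ↥H]
    (hle : redSpan κ N ≤ H) (hdim : Module.finrank κ ↥H ≤ gDim N) : redSpan κ N = H :=
  redSpan_eq_of_le_of_finrank_le N p κ (hasIntegralStructure N) H hle hdim

end Fermat.Agent.T1B.Dim64
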