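/-
T1B / G4-d DIM (brick 625, helper64): compatibility of `serZ` with the Hecke operators on
`q`-expansions (`Hecke7.heckeT2`, `Hecke7.Uop`), for the consumers of `Hol13.LIFTQ`.

* `serZ_coeff_natCast`, `serZ_coeff_of_neg` : the coefficients of `serZ N R f`;
* `serZ_eq_heckeT2_of_qCoeff` / `serZ_eq_Uop_of_qCoeff` : if the `q`-coefficients of `g ∈ Λ` are
  given by the `T_ℓ`- (resp. `U_ℓ`-) formula from those of `f ∈ Λ`, then
  `serZ N R g = heckeT2 ℓ (serZ N R f)` (resp. `= Uop ℓ (serZ N R f)`), over any commutative ring;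
* `heckeTLin_mem_intLattice`, `heckeULin_mem_intLattice`; `latT`, `latU` : the operators `T_ℓ`
  (`ℓ ∤ N`) and `U_q` (`q ∣ N`) on the lattice `Λ = CuspForm.intLattice N 2`;
* **`serZ_latT`**, **`serZ_latU`** : `serZ N R (T_ℓ f) = heckeT2 ℓ (serZ N R f)`,
  `serZ N R (U_q f) = Uop q (serZ N R f)`.
-/
import Mathlib
import Fermat.Prelude.Thm_CuspForm_mem_intLattice_of_coe_eq_heckeT
import Fermat.Prelude.Thm_CuspForm_mem_intLattice_of_coe_eq_heckeU
import Fermat.Agent.T1B.Dim64.RedSpan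

set_option autoImplicit false

noncomputable section

namespace Fermat.Agent.T1B.Dim64

open CuspForm CongruenceSubgroup ModularFormClass Module Function
open Fermat.Agent.T1B.Hol13 Fermat.Agent.T1B.Hecke7

variable (N : ℕ)

/-! ### Coefficients of `serZ` -/

theorem serZ_coeff_natCast (R : Type*) [CommRing R] (f : ↥(CuspForm.intLattice N 2)) (n : ℕ) :
    (serZ N R f).coeff (n : ℤ) = ((coeffZ N f n : ℤ) : R) := by
  rw [serZ_apply, serOf_coeff_natCast]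

theorem serZ_coeff_of_neg (R : Type*) [CommRing R] (f : ↥(CuspForm.intLattice N 2)) {n : ℤ}
    (hn : n < 0) : (serZ N R f).coeff n = 0 :=
  ModularCurve.ofPowerSeries_coeff_of_neg _ hn

/-! ### The two coefficient formulas -/

/-- If the `q`-coefficients of `g` are given by the `T_ℓ`-formula from those of `f`, then
`serZ g = heckeT2 ℓ (serZ f)`. -/
theorem serZ_eq_heckeT2_of_qCoeff (R : Type*) [CommRing R] (ℓ : ℕ) [NeZero ℓ]
    (f g : ↥(CuspForm.intLattice N 2))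
    (h : ∀ n : ℕ, qCoeff (g : CuspForm (Gamma0 N) 2) n =
      qCoeff (f : CuspForm (Gamma0 N) 2) (n * ℓ) +
        if ℓ ∣ n then (ℓ : ℂ) * qCoeff (f : CuspForm (Gamma0 N) 2) (n / ℓ) else 0) :
    serZ N R g = heckeT2 ℓ (serZ N R f) := by
  have hℓ0 : (0 : ℤ) < ℓ := by exact_mod_cast Nat.pos_of_ne_zero (NeZero.ne ℓ)
  -- the integral coefficient formula
  have hZ : ∀ n : ℕ, coeffZ N g n =
      coeffZ N f (n * ℓ) + if ℓ ∣ n then (ℓ : ℤ) * coeffZ N f (n / ℓ) else 0 := by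
    intro n
    apply Int.cast_injective (α := ℂ)
    rw [cast_coeffZ, h n, Int.cast_add, cast_coeffZ]
    split_ifs
    · rw [Int.cast_mul, Int.cast_natCast, cast_coeffZ]
    · rw [Int.cast_zero]
  ext n
  rw [heckeT2_coeff]
  rcases lt_or_ge n 0 with hn | hn
  · rw [serZ_coeff_of_neg N R g hn, serZ_coeff_of_neg N R f (mul_neg_of_pos_of_neg hℓ0 hn)]
    split_ifs with hd
    · rw [serZ_coeff_of_neg N R f (Int.ediv_neg_of_neg_of_pos hn hℓ0), mul_zero, add_zero]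
    · rw [add_zero]
  · lift n to ℕ using hn
    have h1 : ((ℓ : ℤ) * (n : ℤ)) = ((n * ℓ : ℕ) : ℤ) := by push_cast; ring
    have h2 : ((n : ℤ) / (ℓ : ℤ)) = ((n / ℓ : ℕ) : ℤ) := by push_cast; rfl
    rw [serZ_coeff_natCast, h1, serZ_coeff_natCast, h2, serZ_coeff_natCast, hZ n, Int.cast_add]
    congr 1
    by_cases hd : ℓ ∣ n
    · rw [if_pos hd, if_pos (Int.natCast_dvd_natCast.2 hd), Int.cast_mul, Int.cast_natCast]
    · rw [if_neg hd, if_neg (fun h' => hd (Int.natCast_dvd_natCast.1 h')), Int.cast_zero]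

/-- If the `q`-coefficients of `g` are given by the `U_ℓ`-formula from those of `f`, then
`serZ g = Uop ℓ (serZ f)`. -/
theorem serZ_eq_Uop_of_qCoeff (R : Type*) [CommRing R] (ℓ : ℕ) [NeZero ℓ]
    (f g : ↥(CuspForm.intLattice N 2))
    (h : ∀ n : ℕ, qCoeff (g : CuspForm (Gamma0 N) 2) n =
      qCoeff (f : CuspForm (Gamma0 N) 2) (n * ℓ)) :
    serZ N R g = Uop ℓ (serZ N R f) := by
  have hℓ0 : (0 : ℤ) < ℓ := by exact_mod_cast Nat.pos_of_ne_zero (NeZero.ne ℓ)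
  have hZ : ∀ n : ℕ, coeffZ N g n = coeffZ N f (n * ℓ) := by
    intro n
    apply Int.cast_injective (α := ℂ)
    rw [cast_coeffZ, h n, cast_coeffZ]
  ext n
  rw [Uop_coeff]
  rcases lt_or_ge n 0 with hn | hn
  · rw [serZ_coeff_of_neg N R g hn, serZ_coeff_of_neg N R f (mul_neg_of_pos_of_neg hℓ0 hn)]
  · lift n to ℕ using hn
    have h1 : ((ℓ : ℤ) * (n : ℤ)) = ((n * ℓ : ℕ) : ℤ) := by push_cast; ring
    rw [serZ_coeff_natCast, h1, serZ_coeff_natCast, hZ n]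

/-! ### The Hecke operators on the lattice -/

theorem heckeTLin_mem_intLattice {ℓ : ℕ} (hℓ : ℓ.Prime) (hℓN : ¬ ℓ ∣ N)
    {f : CuspForm (Gamma0 N) 2} (hf : f ∈ CuspForm.intLattice N 2) :
    CuspForm.heckeTLin 2 hℓ hℓN f ∈ CuspForm.intLattice N 2 :=
  CuspForm.mem_intLattice_of_coe_eq_heckeT one_le_two hℓ.ne_zero
    (CuspForm.coe_heckeTLin_apply 2 hℓ hℓN f) hf

theorem heckeULin_mem_intLattice [NeZero N] {q : ℕ} (hq : q.Prime) (hqN : q ∣ N)
    {f : CuspForm (Gamma0 N) 2} (hf : f ∈ CuspForm.intLattice N 2) :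
    CuspForm.heckeULin 2 hqN f ∈ CuspForm.intLattice N 2 :=
  CuspForm.mem_intLattice_of_coe_eq_heckeU hq.ne_zero
    (CuspForm.coe_heckeULin_apply 2 hqN f) hf

/-- `T_ℓ` (`ℓ ∤ N`) on the integral lattice. -/
def latT {ℓ : ℕ} (hℓ : ℓ.Prime) (hℓN : ¬ ℓ ∣ N) : Module.End ℤ ↥(CuspForm.intLattice N 2) :=
  LinearMap.restrict ((CuspForm.heckeTLin 2 hℓ hℓN).restrictScalars ℤ)
    (fun _ hf => heckeTLin_mem_intLattice N hℓ hℓN hf)

/-- `U_q` (`q ∣ N`) on the integral lattice. -/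
def latU [NeZero N] {q : ℕ} (hq : q.Prime) (hqN : q ∣ N) :
    Module.End ℤ ↥(CuspForm.intLattice N 2) :=
  LinearMap.restrict ((CuspForm.heckeULin 2 hqN).restrictScalars ℤ)
    (fun _ hf => heckeULin_mem_intLattice N hq hqN hf)

@[simp] theorem coe_latT {ℓ : ℕ} (hℓ : ℓ.Prime) (hℓN : ¬ ℓ ∣ N) (f : ↥(CuspForm.intLattice N 2)) :
    ((latT N hℓ hℓN f : ↥(CuspForm.intLattice N 2)) : CuspForm (Gamma0 N) 2) =
      CuspForm.heckeTLin 2 hℓ hℓN (f : CuspForm (Gamma0 N) 2) := rfl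

@[simp] theorem coe_latU [NeZero N] {q : ℕ} (hq : q.Prime) (hqN : q ∣ N)
    (f : ↥(CuspForm.intLattice N 2)) :
    ((latU N hq hqN f : ↥(CuspForm.intLattice N 2)) : CuspForm (Gamma0 N) 2) =
      CuspForm.heckeULin 2 hqN (f : CuspForm (Gamma0 N) 2) := rfl

/-- **`serZ` intertwines `T_ℓ` with `heckeT2 ℓ`.** -/
theorem serZ_latT (R : Type*) [CommRing R] {ℓ : ℕ} [NeZero ℓ] (hℓ : ℓ.Prime) (hℓN : ¬ ℓ ∣ N)
    (f : ↥(CuspForm.intLattice N 2)) :
    serZ N R (latT N hℓ hℓN f) = heckeT2 ℓ (serZ N R f) :=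
  serZ_eq_heckeT2_of_qCoeff N R ℓ f (latT N hℓ hℓN f) fun n =>
    Fermat.Agent.S49.qCoeff_heckeTLin hℓ hℓN (f : CuspForm (Gamma0 N) 2) n

/-- **`serZ` intertwines `U_q` with `Uop q`.** -/
theorem serZ_latU [NeZero N] (R : Type*) [CommRing R] {q : ℕ} [NeZero q] (hq : q.Prime)
    (hqN : q ∣ N) (f : ↥(CuspForm.intLattice N 2)) :
    serZ N R (latU N hq hqN f) = Uop q (serZ N R f) :=
  serZ_eq_Uop_of_qCoeff N R q f (latU N hq hqN f) fun n =>
    Fermat.Agent.S49.qCoeff_heckeULin hq hqN (f : CuspForm (Gamma0 N) 2) n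

end Fermat.Agent.T1B.Dim64
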